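import Mathlib

/-!
# S40, E-side: peeling off large roots of an integral polynomial (owner: helper194)

Let `v` be a valuation on a field `K` and `f ∈ K[X]` a polynomial with integral coefficients and
`natDegree f ≤ D`.  If `f` has `m` distinct roots of absolute value `≥ ρ ≥ 1` then
`v (f.coeff D) * ρ ^ m ≤ 1`.
-/

set_option autoImplicit false

namespace Fermat.Agent.S40.ESide

open Polynomial

variable {K : Type*} [Field K] {Γ₀ : Type*} [LinearOrderedCommGroupWithZero Γ₀]
  (v : Valuation K Γ₀)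

/-- Dividing by `X - r` with `ρ ≤ v r`, `1 ≤ ρ`, divides the Gauss norm by `ρ`. -/
theorem coeff_mul_le_of_X_sub_C_mul {f g : K[X]} {r : K} {B ρ : Γ₀} (hρ : 1 ≤ ρ) (hr : ρ ≤ v r)
    (hf : f = (X - C r) * g) (hB : ∀ i, v (f.coeff i) ≤ B) (i : ℕ) : v (g.coeff i) * ρ ≤ B := by
  have step : ∀ c : K, v (r * c) ≤ B → v c * ρ ≤ B := by
    intro c hc
    rw [map_mul, mul_comm] at hc
    exact le_trans (mul_le_mul_right hr _) hc
  induction i with
  | zero =>
    apply step
    have h0 : f.coeff 0 = -(r * g.coeff 0) := by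
      rw [hf, mul_coeff_zero]
      simp
    have := hB 0
    rwa [h0, Valuation.map_neg] at this
  | succ i ih =>
    apply step
    have h1 : f.coeff (i + 1) = g.coeff i - r * g.coeff (i + 1) := by
      rw [hf, sub_mul, coeff_sub, coeff_X_mul, coeff_C_mul]
    have h2 : r * g.coeff (i + 1) = g.coeff i - f.coeff (i + 1) := by rw [h1]; ring
    rw [h2]
    refine le_trans (Valuation.map_sub v _ _) (max_le ?_ (hB _))
    exact le_trans (le_mul_of_one_le_right' hρ) ih

/-- Dividing by `∏ (X - r)` over a multiset of elements of absolute value `≥ ρ`. -/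
theorem coeff_mul_pow_le_of_prod_mul {ρ : Γ₀} (hρ : 1 ≤ ρ) (s : Multiset K)
    (hs : ∀ r ∈ s, ρ ≤ v r) :
    ∀ {f g : K[X]} {B : Γ₀}, f = (s.map fun r => X - C r).prod * g →
      (∀ i, v (f.coeff i) ≤ B) → ∀ i, v (g.coeff i) * ρ ^ Multiset.card s ≤ B := by
  induction s using Multiset.induction_on with
  | empty =>
    intro f g B hf hB i
    simp only [Multiset.map_zero, Multiset.prod_zero, one_mul] at hf
    simpa [← hf] using hB i
  | cons a s ih =>
    intro f g B hf hB i
    have hρ0 : 0 < ρ := lt_of_lt_of_le zero_lt_one hρ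
    rw [Multiset.map_cons, Multiset.prod_cons, mul_assoc] at hf
    have h1 := coeff_mul_le_of_X_sub_C_mul v hρ (hs a (Multiset.mem_cons_self a s)) hf hB
    have h2 : ∀ j, v (((s.map fun r => X - C r).prod * g).coeff j) ≤ B * ρ⁻¹ := fun j =>
      (le_mul_inv_iff₀ hρ0).2 (h1 j)
    have h3 := ih (fun r hr => hs r (Multiset.mem_cons_of_mem hr)) rfl h2 i
    rw [Multiset.card_cons, pow_succ, ← mul_assoc]
    exact (le_mul_inv_iff₀ hρ0).1 h3

/-- **Peeling lemma.** -/
theorem val_coeff_mul_pow_le_one (f : K[X]) (D : ℕ) (hdeg : f.natDegree ≤ D)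
    (hint : ∀ i, v (f.coeff i) ≤ 1) {ρ : Γ₀} (hρ : 1 ≤ ρ) (s : Finset K)
    (hroots : ∀ r ∈ s, f.eval r = 0) (hs : ∀ r ∈ s, ρ ≤ v r) :
    v (f.coeff D) * ρ ^ s.card ≤ 1 := by
  rcases lt_or_eq_of_le hdeg with hlt | heq
  · rw [coeff_eq_zero_of_natDegree_lt hlt]
    simp
  have hf0 : f ≠ 0 ∨ f = 0 := (em (f = 0)).symm
  rcases hf0 with hf0 | hf0
  swap
  · rw [hf0]; simp
  have hle : s.val ≤ f.roots := by
    rw [Multiset.le_iff_subset s.nodup]
    intro r hr
    exact (mem_roots hf0).2 (hroots r hr)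
  obtain ⟨g, hg⟩ := (Multiset.prod_X_sub_C_dvd_iff_le_roots hf0 s.val).2 hle
  have hbound := coeff_mul_pow_le_of_prod_mul v hρ s.val (fun r hr => hs r hr) hg hint
  have hmonic : (s.val.map fun r => X - C r).prod.Monic :=
    monic_multiset_prod_of_monic _ _ fun r _ => monic_X_sub_C r
  have hlead : f.coeff D = g.coeff g.natDegree := by
    rw [← heq]
    show f.leadingCoeff = g.leadingCoeff
    rw [hg, leadingCoeff_mul, hmonic.leadingCoeff, one_mul]
  rw [hlead]
  exact hbound _

/-- Evaluation of an integral polynomial with unit top coefficient at a non-integral element. -/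
theorem val_eval_eq_pow (g : K[X]) (d : ℕ) (hdeg : g.natDegree ≤ d)
    (hint : ∀ i, v (g.coeff i) ≤ 1) (htop : v (g.coeff d) = 1) {x : K} (hx : 1 < v x) :
    v (g.eval x) = v x ^ d := by
  have hdeg' : g.natDegree < d + 1 := Nat.lt_succ_of_le hdeg
  rw [eval_eq_sum_range' hdeg', Finset.sum_range_succ]
  have hx0 : v x ≠ 0 := (lt_trans zero_lt_one hx).ne'
  have hlow : v (∑ i ∈ Finset.range d, g.coeff i * x ^ i) < v x ^ d := by
    refine v.map_sum_lt (pow_ne_zero d hx0) fun i hi => ?_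
    rw [Finset.mem_range] at hi
    rw [map_mul, map_pow]
    calc v (g.coeff i) * v x ^ i ≤ 1 * v x ^ i := mul_le_mul_left (hint i) _
      _ = v x ^ i := one_mul _
      _ < v x ^ d := pow_lt_pow_right₀ hx hi
  have htopv : v (g.coeff d * x ^ d) = v x ^ d := by
    rw [map_mul, map_pow, htop, one_mul]
  rw [Valuation.map_add_eq_of_lt_right v (by rwa [htopv]), htopv]

end Fermat.Agent.S40.ESide
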