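import Fermat.Agent.S13.Ladder
import Fermat.Agent.S13.Reduction
import Fermat.Agent.S40.ESide.Peel

/-!
# S40, E-side: depth of `p`-torsion points on the `S13` model (owner: helper194)

`M : Model K a₁ a₂ a₄ G` is the group of points of `Y^2 + a₁ X Y = X^3 + a₂ X^2 + a₄ X`, `v` a
valuation of `K` for which the coefficients are integral.

* `Model.val_mul_pow_le_one_of_torsion` (R2): a nonzero point `R` of odd prime order `p = 2 k + 1`
  in the kernel of reduction satisfies `v p * v (X R) ^ k ≤ 1`, i.e. `v(t(R)) ≤ 1/(p-1)` additively.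
* `Model.one_le_val_X_sub_mul_sq` (R1): two distinct integral points with nonsingular reduction whose
  coordinates are congruent modulo `δ < 1` satisfy `1 ≤ v (X (Q - P)) * δ ^ 2`.
* `Model.val_le_pow_of_congr`: hence if `Q - P` is a nonzero point of order `p` then `v p ≤ δ ^ (p-1)`.
-/

set_option autoImplicit false

namespace Fermat.Agent.S40.ESide

open Polynomial Fermat.Agent.S13 Fermat.Agent.S13.Red

variable {K : Type*} [Field K] {Γ₀ : Type*} [LinearOrderedCommGroupWithZero Γ₀]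
  (v : Valuation K Γ₀) {a₁ a₂ a₄ : K} {G : Type*} [AddCommGroup G] (M : Model K a₁ a₂ a₄ G)

section Coeffs

theorem b₂_mem_integer (h₁ : v a₁ ≤ 1) (h₂ : v a₂ ≤ 1) : a₁ ^ 2 + 4 * a₂ ∈ v.integer := by
  have h1 : a₁ ∈ v.integer := h₁
  have h2 : a₂ ∈ v.integer := h₂
  have h4 : (4 : K) ∈ v.integer := by
    have : ((4 : ℕ) : K) ∈ v.integer := natCast_mem _ 4
    exact_mod_cast this
  exact add_mem (pow_mem h1 2) (mul_mem h4 h2)

theorem val_ladF_coeff_le {b₂ : K} (hb₂ : b₂ ∈ v.integer) (h₄ : v a₄ ≤ 1) (n i : ℕ) :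
    v ((ladF b₂ a₄ n).coeff i) ≤ 1 := by
  have h := ladF_map v.integer.subtype (⟨_, hb₂⟩ : v.integer) (⟨a₄, h₄⟩ : v.integer) n
  have h' : ladF b₂ a₄ n =
      (ladF (⟨_, hb₂⟩ : v.integer) (⟨a₄, h₄⟩ : v.integer) n).map v.integer.subtype := h.symm
  rw [h', coeff_map]
  exact ((ladF (⟨_, hb₂⟩ : v.integer) (⟨a₄, h₄⟩ : v.integer) n).coeff i).2

theorem val_ladG_coeff_le {b₂ : K} (hb₂ : b₂ ∈ v.integer) (h₄ : v a₄ ≤ 1) (n i : ℕ) :
    v ((ladG b₂ a₄ n).coeff i) ≤ 1 := by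
  have h := ladG_map v.integer.subtype (⟨_, hb₂⟩ : v.integer) (⟨a₄, h₄⟩ : v.integer) n
  have h' : ladG b₂ a₄ n =
      (ladG (⟨_, hb₂⟩ : v.integer) (⟨a₄, h₄⟩ : v.integer) n).map v.integer.subtype := h.symm
  rw [h', coeff_map]
  exact ((ladG (⟨_, hb₂⟩ : v.integer) (⟨a₄, h₄⟩ : v.integer) n).coeff i).2

theorem val_ladH_coeff_le {b₂ : K} (hb₂ : b₂ ∈ v.integer) (h₄ : v a₄ ≤ 1) (n i : ℕ) :
    v ((ladH b₂ a₄ n).coeff i) ≤ 1 := by
  have h := ladH_map v.integer.subtype (⟨_, hb₂⟩ : v.integer) (⟨a₄, h₄⟩ : v.integer) n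
  have h' : ladH b₂ a₄ n =
      (ladH (⟨_, hb₂⟩ : v.integer) (⟨a₄, h₄⟩ : v.integer) n).map v.integer.subtype := h.symm
  rw [h', coeff_map]
  exact ((ladH (⟨_, hb₂⟩ : v.integer) (⟨a₄, h₄⟩ : v.integer) n).coeff i).2

end Coeffs

/-- Multiplication by an integer which is a unit preserves the depth in the kernel of reduction. -/
theorem val_X_nsmul_eq (h₄0 : a₄ ≠ 0) (h₁ : v a₁ ≤ 1) (h₂ : v a₂ ≤ 1) (h₄ : v a₄ ≤ 1)
    {R : G} (hR : R ≠ 0) (hX : 1 < v (M.X R)) {a : ℕ} (ha : 0 < a) (hau : v (a : K) = 1)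
    (haR : a • R ≠ 0) : v (M.X (a • R)) = v (M.X R) := by
  have hb₂ := b₂_mem_integer v h₁ h₂
  have hF : v ((ladF (a₁ ^ 2 + 4 * a₂) a₄ a).eval (M.X R)) = v (M.X R) ^ (a ^ 2) :=
    val_eval_eq_pow v _ _ (ladF_natDegree_le _ _ a) (val_ladF_coeff_le v hb₂ h₄ a)
      (by rw [ladF_coeff, map_one]) hX
  have hG : v ((ladG (a₁ ^ 2 + 4 * a₂) a₄ a).eval (M.X R)) = v (M.X R) ^ (a ^ 2 - 1) :=
    val_eval_eq_pow v _ _ (ladG_natDegree_le _ _ a) (val_ladG_coeff_le v hb₂ h₄ a)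
      (by rw [ladG_coeff _ _ a ha, map_pow, hau, one_pow]) hX
  have h := congrArg v (M.X_nsmul_mul h₄0 hR a haR)
  rw [map_mul, hF, hG] at h
  have hx0 : v (M.X R) ≠ 0 := (lt_trans zero_lt_one hX).ne'
  obtain ⟨d, hd⟩ : ∃ d, a ^ 2 = d + 1 := ⟨a ^ 2 - 1, by have := Nat.pow_pos (n := 2) ha; omega⟩
  rw [hd, Nat.add_sub_cancel, pow_succ, mul_comm] at h
  exact mul_left_cancel₀ (pow_ne_zero _ hx0) h

theorem nsmul_ne_zero_of_lt {p : ℕ} (hp : p.Prime) {R : G} (hR : R ≠ 0) (hpR : p • R = 0) {a : ℕ}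
    (ha : 0 < a) (hap : a < p) : a • R ≠ 0 := by
  intro h
  have h1 : addOrderOf R ∣ a := addOrderOf_dvd_of_nsmul_eq_zero h
  have h2 : addOrderOf R ∣ p := addOrderOf_dvd_of_nsmul_eq_zero hpR
  rcases (Nat.dvd_prime hp).1 h2 with h3 | h3
  · exact hR (AddMonoid.addOrderOf_eq_one_iff.1 h3)
  · rw [h3] at h1
    exact absurd (Nat.le_of_dvd ha h1) (not_le.2 hap)

/-- **(R2)** -/
theorem val_mul_pow_le_one_of_torsion (h₄0 : a₄ ≠ 0) (h₁ : v a₁ ≤ 1) (h₂ : v a₂ ≤ 1)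
    (h₄ : v a₄ ≤ 1) {k : ℕ} (hprime : (2 * k + 1).Prime)
    (hunit : ∀ a : ℕ, 0 < a → a ≤ k → v (a : K) = 1) {R : G} (hR : R ≠ 0)
    (hpR : (2 * k + 1) • R = 0) (hX : 1 < v (M.X R)) :
    v ((2 * k + 1 : ℕ) : K) * v (M.X R) ^ k ≤ 1 := by
  classical
  have hb₂ := b₂_mem_integer v h₁ h₂
  have hne : ∀ a : ℕ, 0 < a → a < 2 * k + 1 → a • R ≠ 0 := fun a ha hap =>
    nsmul_ne_zero_of_lt hprime hR hpR ha hap
  have hinj : Set.InjOn (fun a : ℕ => M.X (a • R)) (Finset.Icc 1 k : Finset ℕ) := by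
    intro a ha b hb hab
    simp only [Finset.coe_Icc, Set.mem_Icc] at ha hb
    simp only at hab
    by_contra hne'
    rcases M.eq_or_eq_neg_of_X_eq (hne a (by omega) (by omega)) (hne b (by omega) (by omega)) hab
      with h | h
    · rcases lt_or_gt_of_ne hne' with hlt | hlt
      · apply hne (b - a) (by omega) (by omega)
        have : b • R = (b - a) • R + a • R := by rw [← add_nsmul]; congr 1; omega
        rw [h] at this
        simpa using this.symm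
      · apply hne (a - b) (by omega) (by omega)
        have : a • R = (a - b) • R + b • R := by rw [← add_nsmul]; congr 1; omega
        rw [h] at this
        simpa using this.symm
    · apply hne (a + b) (by omega) (by omega)
      rw [add_nsmul, h, neg_add_cancel]
  have hcard : ((Finset.Icc 1 k).image fun a : ℕ => M.X (a • R)).card = k := by
    rw [Finset.card_image_of_injOn hinj]
    simp
  have key := val_coeff_mul_pow_le_one v (ladH (a₁ ^ 2 + 4 * a₂) a₄ k) (2 * k ^ 2 + 2 * k)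
    (ladH_natDegree_le _ _ k) (val_ladH_coeff_le v hb₂ h₄ k) hX.le
    ((Finset.Icc 1 k).image fun a : ℕ => M.X (a • R)) ?_ ?_
  · rwa [ladH_coeff, hcard] at key
  · intro r hr
    obtain ⟨a, ha, rfl⟩ := Finset.mem_image.1 hr
    rw [Finset.mem_Icc] at ha
    have h0 : (2 * k + 1) • (a • R) = 0 := by
      rw [smul_comm, hpR, smul_zero]
    have h1 := (M.nsmul_eq_zero_iff h₄0 (hne a (by omega) (by omega)) (2 * k + 1)).1 h0
    rw [ladG_odd, eval_pow] at h1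
    exact pow_eq_zero_iff two_ne_zero |>.1 h1
  · intro r hr
    obtain ⟨a, ha, rfl⟩ := Finset.mem_image.1 hr
    rw [Finset.mem_Icc] at ha
    exact (val_X_nsmul_eq v M h₄0 h₁ h₂ h₄ hR hX (by omega) (hunit a (by omega) ha.2)
      (hne a (by omega) (by omega))).ge

/-- **(R1)** -/
theorem one_le_val_X_sub_mul_sq (h₁ : v a₁ ≤ 1) (h₂ : v a₂ ≤ 1) {P Q : G}
    (hP : P ≠ 0) (hQ : Q ≠ 0) (hXP : v (M.X P) ≤ 1) {δ : Γ₀} (hδ : δ < 1)
    (hX : v (M.X Q - M.X P) ≤ δ) (hY : v (M.Y Q - M.Y P) ≤ δ)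
    (hns : v (2 * M.Y P + a₁ * M.X P) = 1 ∨
      v (3 * M.X P ^ 2 + 2 * a₂ * M.X P + a₄ - a₁ * M.Y P) = 1) (hD : Q - P ≠ 0) :
    1 ≤ v (M.X (Q - P)) * δ ^ 2 := by
  have hsum : Q + -P + -(Q - P) = 0 := by abel
  obtain ⟨l, n, e1, e2, -, s1, s2, -⟩ :=
    M.line Q (-P) (-(Q - P)) hQ (neg_ne_zero.mpr hP) (neg_ne_zero.mpr hD) hsum
  rw [M.X_neg _ hP, M.X_neg _ hD] at s1 s2
  rw [M.X_neg _ hP, M.Y_neg _ hP] at e2
  have hX1 : v (M.X Q - M.X P) ≤ 1 := hX.trans hδ.le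
  have hXQ : v (M.X Q) ≤ 1 := by
    have : M.X Q = (M.X Q - M.X P) + M.X P := by ring
    rw [this]
    exact le_add v hX1 hXP
  have hψ : 2 * M.Y P + a₁ * M.X P = l * (M.X Q - M.X P) - (M.Y Q - M.Y P) := by
    linear_combination e1 - e2
  have hω : 3 * M.X P ^ 2 + 2 * a₂ * M.X P + a₄ - a₁ * M.Y P =
      (a₁ + l) * (M.Y Q - M.Y P) - (a₂ + 3 * M.X P + (M.X Q - M.X P)) * (M.X Q - M.X P) := by
    linear_combination -s2 + (M.X Q + M.X P) * s1 - (2 * l + a₁) * e2 - (a₁ + l) * (e1 - e2)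
  -- the slope is large
  have hl : 1 ≤ v l * δ := by
    rcases hns with h | h
    · rw [hψ] at h
      have h3 := Valuation.map_sub v (l * (M.X Q - M.X P)) (M.Y Q - M.Y P)
      rw [h] at h3
      rcases le_max_iff.1 h3 with h4 | h4
      · rw [map_mul] at h4
        exact h4.trans (mul_le_mul_right hX _)
      · exact absurd (h4.trans hY) (not_le.2 hδ)
    · rw [hω] at h
      have h3 := Valuation.map_sub v ((a₁ + l) * (M.Y Q - M.Y P))
        ((a₂ + 3 * M.X P + (M.X Q - M.X P)) * (M.X Q - M.X P))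
      rw [h] at h3
      rcases le_max_iff.1 h3 with h4 | h4
      · rw [map_mul] at h4
        have h5 : 1 ≤ v (a₁ + l) * δ := h4.trans (mul_le_mul_right hY _)
        rcases le_max_iff.1 (Valuation.map_add v a₁ l) with h6 | h6
        · exfalso
          have : v (a₁ + l) * δ ≤ 1 * δ := mul_le_mul_left (h6.trans h₁) _
          rw [one_mul] at this
          exact absurd (h5.trans this) (not_le.2 hδ)
        · exact h5.trans (mul_le_mul_left h6 _)
      · exfalso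
        rw [map_mul] at h4
        have hc : v (a₂ + 3 * M.X P + (M.X Q - M.X P)) ≤ 1 :=
          le_add v (le_add v h₂ (le_mul v (le_ofNat v 3) hXP)) hX1
        have : v (a₂ + 3 * M.X P + (M.X Q - M.X P)) * v (M.X Q - M.X P) ≤ 1 * δ :=
          mul_le_mul' hc hX
        rw [one_mul] at this
        exact absurd (h4.trans this) (not_le.2 hδ)
  have hl1 : 1 < v l := by
    by_contra hcon
    rw [not_lt] at hcon
    have : v l * δ ≤ 1 * δ := mul_le_mul_left hcon _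
    rw [one_mul] at this
    exact absurd (hl.trans this) (not_le.2 hδ)
  have hlpos : 0 < v l := lt_trans zero_lt_one hl1
  have hll : v l < v l ^ 2 := by
    calc v l = v l * 1 := (mul_one _).symm
      _ < v l * v l := by gcongr
      _ = v l ^ 2 := (sq _).symm
  have hXD : v (M.X (Q - P)) = v l ^ 2 := by
    have e : M.X (Q - P) = l ^ 2 + (a₁ * l - a₂ - M.X Q - M.X P) := by linear_combination s1
    have hsmall : v (a₁ * l - a₂ - M.X Q - M.X P) < v (l ^ 2) := by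
      rw [map_pow]
      have h1l : (1 : Γ₀) < v l ^ 2 := lt_trans hl1 hll
      refine lt_of_le_of_lt (Valuation.map_sub v _ _) (max_lt ?_ (lt_of_le_of_lt hXP h1l))
      refine lt_of_le_of_lt (Valuation.map_sub v _ _) (max_lt ?_ (lt_of_le_of_lt hXQ h1l))
      refine lt_of_le_of_lt (Valuation.map_sub v _ _) (max_lt ?_ (lt_of_le_of_lt h₂ h1l))
      rw [map_mul]
      calc v a₁ * v l ≤ 1 * v l := mul_le_mul_left h₁ _
        _ = v l := one_mul _
        _ < _ := hll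
    rw [e, Valuation.map_add_eq_of_lt_left v hsmall, map_pow]
  rw [hXD, ← mul_pow]
  exact one_le_pow₀ hl

/-- Two integral points with nonsingular reduction whose difference is a nonzero point of odd prime
order `p = 2 k + 1` are not congruent modulo `δ` if `δ ^ (p - 1) < v p`. -/
theorem val_le_pow_of_congr (h₄0 : a₄ ≠ 0) (h₁ : v a₁ ≤ 1) (h₂ : v a₂ ≤ 1)
    (h₄ : v a₄ ≤ 1) {k : ℕ} (hprime : (2 * k + 1).Prime)
    (hunit : ∀ a : ℕ, 0 < a → a ≤ k → v (a : K) = 1) {P Q : G}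
    (hP : P ≠ 0) (hQ : Q ≠ 0) (hXP : v (M.X P) ≤ 1) {δ : Γ₀} (hδ : δ < 1)
    (hX : v (M.X Q - M.X P) ≤ δ) (hY : v (M.Y Q - M.Y P) ≤ δ)
    (hns : v (2 * M.Y P + a₁ * M.X P) = 1 ∨
      v (3 * M.X P ^ 2 + 2 * a₂ * M.X P + a₄ - a₁ * M.Y P) = 1) (hD : Q - P ≠ 0)
    (hpD : (2 * k + 1) • (Q - P) = 0) : v ((2 * k + 1 : ℕ) : K) ≤ δ ^ (2 * k) := by
  have h1 := one_le_val_X_sub_mul_sq v M h₁ h₂ hP hQ hXP hδ hX hY hns hD
  have hδ2 : δ ^ 2 < 1 := pow_lt_one₀ zero_le hδ two_ne_zero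
  have hX1 : 1 < v (M.X (Q - P)) := by
    by_contra hcon
    rw [not_lt] at hcon
    have : v (M.X (Q - P)) * δ ^ 2 ≤ 1 * δ ^ 2 := mul_le_mul_left hcon _
    rw [one_mul] at this
    exact absurd (h1.trans this) (not_le.2 hδ2)
  have h2 := val_mul_pow_le_one_of_torsion v M h₄0 h₁ h₂ h₄ hprime hunit hD hpD hX1
  calc v ((2 * k + 1 : ℕ) : K) = v ((2 * k + 1 : ℕ) : K) * 1 := (mul_one _).symm
    _ ≤ v ((2 * k + 1 : ℕ) : K) * (v (M.X (Q - P)) * δ ^ 2) ^ k :=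
        mul_le_mul_right (one_le_pow₀ h1) _
    _ = (v ((2 * k + 1 : ℕ) : K) * v (M.X (Q - P)) ^ k) * δ ^ (2 * k) := by
        rw [mul_pow, ← pow_mul, mul_assoc]
    _ ≤ 1 * δ ^ (2 * k) := mul_le_mul_left h2 _
    _ = δ ^ (2 * k) := one_mul _

end Fermat.Agent.S40.ESide
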