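import Fermat.Agent.S13.ModelOfWeierstrass
import Fermat.Agent.S13.Torsion
import Fermat.Agent.S40.ESide.ModelDepth

/-!
# S40, E-side: a general Weierstrass curve with good reduction as an `S13` model
(owner: helper194)

`E` is a Weierstrass curve over an algebraically closed field `K`, `v` a valuation of `K` with
`v 2 = 1` for which the coefficients of `E` are integral and `v E.Δ = 1`.
-/

set_option autoImplicit false

namespace Fermat.Agent.S40.ESide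

open Polynomial WeierstrassCurve WeierstrassCurve.Affine Fermat.Agent.S13 Fermat.Agent.S13.Red

variable {K : Type*} [Field K] {Γ₀ : Type*} [LinearOrderedCommGroupWithZero Γ₀]
  (v : Valuation K Γ₀) (E : WeierstrassCurve.Affine K)

/-- The discriminant in terms of the coefficients of the translated equation. -/
theorem delta_eq_of_two_torsion {r s : K} (hrs : E.Equation r s)
    (h2 : 2 * s + E.a₁ * r + E.a₃ = 0) :
    E.Δ = (E.a₄ + 2 * E.a₂ * r + 3 * r ^ 2 - E.a₁ * s) ^ 2 *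
      ((E.a₁ ^ 2 + 4 * (E.a₂ + 3 * r)) ^ 2 - 64 * (E.a₄ + 2 * E.a₂ * r + 3 * r ^ 2 - E.a₁ * s)) := by
  rw [equation_iff] at hrs
  let C : VariableChange K := ⟨1, r, 0, s⟩
  have hΔ : (C • E).Δ = E.Δ := by
    rw [variableChange_Δ]
    simp [C]
  have ha1 : (C • E).a₁ = E.a₁ := by rw [variableChange_a₁]; simp [C]
  have ha2 : (C • E).a₂ = E.a₂ + 3 * r := by rw [variableChange_a₂]; simp [C]
  have ha3 : (C • E).a₃ = 0 := by
    rw [variableChange_a₃]
    simp only [C, inv_one, Units.val_one, one_pow, one_mul]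
    linear_combination h2
  have ha4 : (C • E).a₄ = E.a₄ + 2 * E.a₂ * r + 3 * r ^ 2 - E.a₁ * s := by
    rw [variableChange_a₄]
    simp only [C, inv_one, Units.val_one, one_pow, one_mul]
    ring
  have ha6 : (C • E).a₆ = 0 := by
    rw [variableChange_a₆]
    simp only [C, inv_one, Units.val_one, one_pow, one_mul]
    linear_combination -hrs
  rw [← hΔ, WeierstrassCurve.Δ, WeierstrassCurve.b₂, WeierstrassCurve.b₄, WeierstrassCurve.b₆,
    WeierstrassCurve.b₈, ha1, ha2, ha3, ha4, ha6]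
  ring

/-- Existence of an integral `2`-torsion point. -/
theorem exists_two_torsion [IsAlgClosed K] (hv2 : v 2 = 1) (h₁ : v E.a₁ ≤ 1) (h₂ : v E.a₂ ≤ 1)
    (h₃ : v E.a₃ ≤ 1) (h₄ : v E.a₄ ≤ 1) (h₆ : v E.a₆ ≤ 1) :
    ∃ r s : K, E.Equation r s ∧ 2 * s + E.a₁ * r + E.a₃ = 0 ∧ v r ≤ 1 ∧ v s ≤ 1 := by
  have h20 : (2 : K) ≠ 0 := by
    intro h
    rw [h, map_zero] at hv2
    exact zero_ne_one hv2
  have h40 : (4 : K) ≠ 0 := by
    have : (4 : K) = 2 * 2 := by norm_num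
    rw [this]
    exact mul_ne_zero h20 h20
  have hv4 : v 4 = 1 := by
    have : (4 : K) = 2 * 2 := by norm_num
    rw [this, map_mul, hv2, one_mul]
  set c₂ : K := E.a₁ ^ 2 + 4 * E.a₂ with hc₂
  set c₁ : K := 2 * (2 * E.a₄ + E.a₁ * E.a₃) with hc₁
  set c₀ : K := E.a₃ ^ 2 + 4 * E.a₆ with hc₀
  have hc₂v : v c₂ ≤ 1 := le_add v (le_pow v h₁ 2) (le_mul v hv4.le h₂)
  have hc₁v : v c₁ ≤ 1 := le_mul v hv2.le (le_add v (le_mul v hv2.le h₄) (le_mul v h₁ h₃))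
  have hc₀v : v c₀ ≤ 1 := le_add v (le_pow v h₃ 2) (le_mul v hv4.le h₆)
  let q : K[X] := C 4 * X ^ 3 + C c₂ * X ^ 2 + C c₁ * X + C c₀
  have hq : q.degree ≠ 0 := by
    have : q.degree = 3 := degree_cubic h40
    rw [this]; decide
  obtain ⟨r, hr⟩ := IsAlgClosed.exists_root q hq
  simp only [q, IsRoot.def, eval_add, eval_mul, eval_C, eval_pow, eval_X] at hr
  have hrv : v r ≤ 1 := by
    by_contra hcon
    rw [not_le] at hcon
    have hr0 : 0 < v r := lt_trans zero_lt_one hcon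
    have e : 4 * r ^ 3 = -(c₂ * r ^ 2 + c₁ * r + c₀) := by linear_combination hr
    have h3 : v (4 * r ^ 3) = v r ^ 3 := by rw [map_mul, hv4, one_mul, map_pow]
    have hr2 : v r ^ 2 < v r ^ 3 := pow_lt_pow_right₀ hcon (by norm_num)
    have hr1 : v r < v r ^ 3 := by
      calc v r = v r ^ 1 := (pow_one _).symm
        _ < v r ^ 3 := pow_lt_pow_right₀ hcon (by norm_num)
    have h4 : v (-(c₂ * r ^ 2 + c₁ * r + c₀)) < v r ^ 3 := by
      rw [Valuation.map_neg]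
      refine Valuation.map_add_lt v (Valuation.map_add_lt v ?_ ?_) ?_
      · rw [map_mul, map_pow]
        calc v c₂ * v r ^ 2 ≤ 1 * v r ^ 2 := mul_le_mul_left hc₂v _
          _ = v r ^ 2 := one_mul _
          _ < _ := hr2
      · rw [map_mul]
        calc v c₁ * v r ≤ 1 * v r := mul_le_mul_left hc₁v _
          _ = v r := one_mul _
          _ < _ := hr1
      · exact lt_of_le_of_lt hc₀v (lt_trans hcon hr1)
    rw [← e, h3] at h4
    exact lt_irrefl _ h4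
  refine ⟨r, -(E.a₁ * r + E.a₃) / 2, ?_, by field_simp; ring, hrv, ?_⟩
  · rw [equation_iff]
    have : (4 : K) * ((-(E.a₁ * r + E.a₃) / 2) ^ 2 + E.a₁ * r * (-(E.a₁ * r + E.a₃) / 2)
        + E.a₃ * (-(E.a₁ * r + E.a₃) / 2)) = 4 * (r ^ 3 + E.a₂ * r ^ 2 + E.a₄ * r + E.a₆) := by
      field_simp
      linear_combination -hr
    exact mul_left_cancel₀ h40 this
  · rw [map_div₀, hv2, div_one, Valuation.map_neg]
    exact le_add v (le_mul v h₁ hrv) h₃

section Good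

variable {E} {r s : K} (hrs : E.Equation r s) (h2 : 2 * s + E.a₁ * r + E.a₃ = 0)

include hrs h2

theorem val_model_coeffs (h₁ : v E.a₁ ≤ 1) (h₂ : v E.a₂ ≤ 1) (h₄ : v E.a₄ ≤ 1)
    (hΔ : v E.Δ = 1) (hr : v r ≤ 1) (hs : v s ≤ 1) :
    v (E.a₂ + 3 * r) ≤ 1 ∧ v (E.a₄ + 2 * E.a₂ * r + 3 * r ^ 2 - E.a₁ * s) = 1 ∧
      v ((E.a₁ ^ 2 + 4 * (E.a₂ + 3 * r)) ^ 2
        - 64 * (E.a₄ + 2 * E.a₂ * r + 3 * r ^ 2 - E.a₁ * s)) = 1 := by
  have hA₂ : v (E.a₂ + 3 * r) ≤ 1 := le_add v h₂ (le_mul v (le_ofNat v 3) hr)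
  have hA₄ : v (E.a₄ + 2 * E.a₂ * r + 3 * r ^ 2 - E.a₁ * s) ≤ 1 :=
    le_sub v (le_add v (le_add v h₄ (le_mul v (le_mul v (le_ofNat v 2) h₂) hr))
      (le_mul v (le_ofNat v 3) (le_pow v hr 2))) (le_mul v h₁ hs)
  have hd : v ((E.a₁ ^ 2 + 4 * (E.a₂ + 3 * r)) ^ 2
      - 64 * (E.a₄ + 2 * E.a₂ * r + 3 * r ^ 2 - E.a₁ * s)) ≤ 1 :=
    le_sub v (le_pow v (le_add v (le_pow v h₁ 2) (le_mul v (le_ofNat v 4) hA₂)) 2)
      (le_mul v (le_ofNat v 64) hA₄)
  rw [delta_eq_of_two_torsion E hrs h2, map_mul, map_pow] at hΔ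
  refine ⟨hA₂, ?_, ?_⟩
  · by_contra hne
    have hlt := lt_of_le_of_ne hA₄ hne
    have h3 : v (E.a₄ + 2 * E.a₂ * r + 3 * r ^ 2 - E.a₁ * s) ^ 2 < 1 :=
      pow_lt_one₀ zero_le hlt two_ne_zero
    have := mul_lt_one_of_nonneg_of_lt_one_left zero_le h3 hd
    rw [hΔ] at this
    exact lt_irrefl _ this
  · by_contra hne
    have hlt := lt_of_le_of_ne hd hne
    have h3 : v (E.a₄ + 2 * E.a₂ * r + 3 * r ^ 2 - E.a₁ * s) ^ 2 ≤ 1 := pow_le_one₀ zero_le hA₄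
    have := mul_lt_one_of_nonneg_of_lt_one_right h3 zero_le hlt
    rw [hΔ] at this
    exact lt_irrefl _ this

end Good

end Fermat.Agent.S40.ESide
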