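import Fermat.Agent.S05.Inertia
import Fermat.Agent.S13.ModelGalois
import Fermat.Agent.S40.ESide.Curve
import Fermat.Prelude.Def_FLTPrelim_Modularity
import Fermat.Prelude.Def_FLTPrelim_Ramification

/-!
# S40, E-side: the ramification bound (BR) for the `p`-torsion of a curve with good reduction at `p`
(owner: helper194)

`Deep A p a` means `v(a) > v(p)/(p-1)`.  Main result `BR`: if `τ` is in the inertia group of `A`
(over the odd prime `p` of good reduction) and moves the `p`-torsion point `P`, then some element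
`a ∈ A` of the field `K₀(P)` (fixed by all inertia elements fixing `P`) has `τ a - a` not deep.
-/

set_option autoImplicit false

namespace Fermat.Agent.S40.ESide

open WeierstrassCurve WeierstrassCurve.Affine WeierstrassCurve.Affine.Point
  Fermat.Agent.S13 Fermat.Agent.S05

/-- `ℚ̄`. -/
abbrev Qb : Type := AlgebraicClosure ℚ

/-- The absolute Galois group of `ℚ`. -/
abbrev GQ : Type := AlgebraicClosure ℚ ≃ₐ[ℚ] AlgebraicClosure ℚ

/-- `v(a) > v(p)/(p-1)`. -/
def Deep (A : ValuationSubring Qb) (p : ℕ) (a : Qb) : Prop := a ^ (p - 1) / p ∈ A.nonunits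

theorem deep_iff (A : ValuationSubring Qb) {p : ℕ} (hp : p ≠ 0) (a : Qb) :
    Deep A p a ↔ A.valuation a ^ (p - 1) < A.valuation (p : Qb) := by
  have hp0 : (p : Qb) ≠ 0 := by exact_mod_cast hp
  have hv : 0 < A.valuation (p : Qb) := zero_lt_iff.2 ((map_ne_zero _).2 hp0)
  rw [Deep, ValuationSubring.mem_nonunits_iff, map_div₀, map_pow, div_lt_one₀ hv]

/-- The curve over `ℚ̄` attached to an integral Weierstrass equation. -/
noncomputable abbrev curve (W : WeierstrassCurve ℤ) : WeierstrassCurve.Affine Qb :=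
  (W.map (Int.castRingHom ℚ))⁄Qb

section Coeffs

variable (W : WeierstrassCurve ℤ) (A : ValuationSubring Qb)

theorem curve_a₁ : (curve W).a₁ = ((W.a₁ : ℤ) : Qb) := by simp [curve]
theorem curve_a₂ : (curve W).a₂ = ((W.a₂ : ℤ) : Qb) := by simp [curve]
theorem curve_a₃ : (curve W).a₃ = ((W.a₃ : ℤ) : Qb) := by simp [curve]
theorem curve_a₄ : (curve W).a₄ = ((W.a₄ : ℤ) : Qb) := by simp [curve]
theorem curve_a₆ : (curve W).a₆ = ((W.a₆ : ℤ) : Qb) := by simp [curve]
theorem curve_Δ : (curve W).Δ = ((W.Δ : ℤ) : Qb) := by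
  show ((W.map (Int.castRingHom ℚ)).map (algebraMap ℚ Qb)).Δ = _
  rw [WeierstrassCurve.map_Δ, WeierstrassCurve.map_Δ]
  simp

end Coeffs

section Core

variable {W : WeierstrassCurve ℤ} {A : ValuationSubring Qb} {r s : Qb}
  (hΔ0 : (curve W).Δ ≠ 0) (hrs : (curve W).Equation r s)
  (h2 : 2 * s + (curve W).a₁ * r + (curve W).a₃ = 0)

omit hΔ0 hrs h2 in
theorem gal_add (σ : GQ) (P Q : (curve W).Point) : σ • (P + Q) = σ • P + σ • Q := smul_add σ P Q

omit hΔ0 hrs h2 in
theorem gal_zero (σ : GQ) : σ • (0 : (curve W).Point) = 0 := rfl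

omit hΔ0 hrs h2 in
theorem gal_nsmul (σ : GQ) (n : ℕ) (T : (curve W).Point) : n • (σ • T) = σ • (n • T) := by
  induction n with
  | zero => rw [zero_nsmul, zero_nsmul, gal_zero]
  | succ n ih => rw [succ_nsmul, succ_nsmul, gal_add, ih]

include hΔ0 hrs h2 in
/-- The inertia group at an odd prime of good reduction fixes the chosen `2`-torsion point. -/
theorem inertia_fixes_two_torsion (hv2 : A.valuation (2 : Qb) = 1)
    (hΔ : A.valuation (curve W).Δ = 1) (hr : A.valuation r ≤ 1) (hs : A.valuation s ≤ 1)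
    {σ : GQ} (hσ : σ ∈ A.inertiaSubgroupIn ℚ) : σ r = r ∧ σ s = s := by
  set v := A.valuation with hv
  have h₁ : v (curve W).a₁ ≤ 1 := by rw [curve_a₁]; exact valuation_intCast_le_one A _
  have h₂ : v (curve W).a₂ ≤ 1 := by rw [curve_a₂]; exact valuation_intCast_le_one A _
  have h₄ : v (curve W).a₄ ≤ 1 := by rw [curve_a₄]; exact valuation_intCast_le_one A _
  obtain ⟨hA₂, hA₄, hd⟩ := val_model_coeffs v hrs h2 h₁ h₂ h₄ hΔ hr hs
  let M := modelOfWeierstrass (curve W) r s hΔ0 hrs h2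
  have h₄0 : (curve W).a₄ + 2 * (curve W).a₂ * r + 3 * r ^ 2 - (curve W).a₁ * s ≠ 0 := by
    intro h
    rw [h, _root_.map_zero] at hA₄
    exact zero_ne_one hA₄
  obtain ⟨T, hT, hTX, hTY⟩ := M.exists_point 0 0 (by ring)
  rcases T with _ | ⟨x, y, h⟩
  · exact absurd rfl hT
  have hx : x = r := by
    have : x - r = 0 := hTX
    exact sub_eq_zero.1 this
  have hy : y = s := by
    have : y - s = 0 := hTY
    exact sub_eq_zero.1 this
  set T : (curve W).Point := Point.some x y h with hTdef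
  have hXσ : M.X (σ • T) = σ x - r := rfl
  have hYσ : M.Y (σ • T) = σ y - s := rfl
  have hfix : σ • T = T := by
    by_contra hne
    have hD : σ • T - T ≠ 0 := sub_ne_zero.2 hne
    have hXT : v (M.X T) ≤ 1 := by rw [hTX, _root_.map_zero]; exact zero_le_one
    have hE1 := M.inE1_sub_of_congr v h₁ hA₂ hA₄.le hT (smul_ne_zero σ hT) hXT
      (by
        rw [hXσ, hTX, sub_zero, hx]
        exact inertia_valuation_sub_lt_one A hσ hr)
      (by
        rw [hYσ, hTY, sub_zero, hy]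
        exact inertia_valuation_sub_lt_one A hσ hs)
      (M.nonsing_of_good v h₁ hA₂ hA₄ hd hT hXT)
    have h2T : 2 • T = 0 := (M.two_nsmul_eq_zero_iff hT).2 (by rw [hTX, hTY]; ring)
    have h2D : 2 • (σ • T - T) = 0 := by
      rw [nsmul_sub, gal_nsmul, h2T, gal_zero, sub_zero]
    have := Model.integral_of_torsion v M h₄0 h₁ hA₂ hA₄.le (n := 2) (by exact_mod_cast hv2) hD h2D
    exact absurd (hE1.resolve_left hD) (not_lt.2 this)
  have h3 : M.X (σ • T) = M.X T := by rw [hfix]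
  have h4 : M.Y (σ • T) = M.Y T := by rw [hfix]
  rw [hXσ, hTX, hx] at h3
  rw [hYσ, hTY, hy] at h4
  exact ⟨sub_eq_zero.1 h3, sub_eq_zero.1 h4⟩

end Core

/-- **(BR)** The ramification bound for the `p`-torsion of a curve with good reduction at `p`. -/
theorem BR (W : WeierstrassCurve ℤ) {p : ℕ} (hp : p.Prime) (hp2 : p ≠ 2)
    (hgood : W.IsGoodPrimeFor p) (A : ValuationSubring Qb) (hA : A.LiesOverPrime p) {τ : GQ}
    (hτ : τ ∈ A.inertiaSubgroupIn ℚ) (P : (curve W).Point) (hP : p • P = 0) (hτP : τ • P ≠ P) :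
    ∃ a : Qb, a ∈ A ∧ (∀ σ ∈ A.inertiaSubgroupIn ℚ, σ • P = P → σ a = a) ∧
      ¬ Deep A p (τ a - a) := by
  obtain ⟨k, rfl⟩ : ∃ k, p = 2 * k + 1 := by
    rcases hp.eq_two_or_odd' with h | h
    · exact absurd h hp2
    · exact h
  set v := A.valuation with hv
  have hunitZ : ∀ n : ℤ, ¬ ((2 * k + 1 : ℕ) : ℤ) ∣ n → v (n : Qb) = 1 := fun n hn =>
    valuation_intCast_eq_one A hp hA hn
  have hk : 0 < k := by
    rcases Nat.eq_zero_or_pos k with rfl | h
    · exact absurd hp (by norm_num)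
    · exact h
  have hunit : ∀ a : ℕ, 0 < a → a ≤ 2 * k → v (a : Qb) = 1 := by
    intro a ha hak
    have := hunitZ (a : ℤ) (by
      intro hdvd
      have := Int.le_of_dvd (by exact_mod_cast ha) hdvd
      push_cast at this
      omega)
    exact_mod_cast this
  have hv2 : v (2 : Qb) = 1 := by
    have := hunit 2 (by norm_num) (by omega)
    exact_mod_cast this
  have h₁ : v (curve W).a₁ ≤ 1 := by rw [curve_a₁]; exact valuation_intCast_le_one A _
  have h₂ : v (curve W).a₂ ≤ 1 := by rw [curve_a₂]; exact valuation_intCast_le_one A _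
  have h₃ : v (curve W).a₃ ≤ 1 := by rw [curve_a₃]; exact valuation_intCast_le_one A _
  have h₄ : v (curve W).a₄ ≤ 1 := by rw [curve_a₄]; exact valuation_intCast_le_one A _
  have h₆ : v (curve W).a₆ ≤ 1 := by rw [curve_a₆]; exact valuation_intCast_le_one A _
  have hΔ : v (curve W).Δ = 1 := by rw [curve_Δ]; exact hunitZ _ hgood
  have hΔ0 : (curve W).Δ ≠ 0 := by
    intro h
    rw [h, _root_.map_zero] at hΔ
    exact zero_ne_one hΔ
  obtain ⟨r, s, hrs, h2, hr, hs⟩ := exists_two_torsion v (curve W) hv2 h₁ h₂ h₃ h₄ h₆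
  obtain ⟨hA₂, hA₄, hd⟩ := val_model_coeffs v hrs h2 h₁ h₂ h₄ hΔ hr hs
  let M := modelOfWeierstrass (curve W) r s hΔ0 hrs h2
  have h₄0 : (curve W).a₄ + 2 * (curve W).a₂ * r + 3 * r ^ 2 - (curve W).a₁ * s ≠ 0 := by
    intro h
    rw [h, _root_.map_zero] at hA₄
    exact zero_ne_one hA₄
  have hfix : ∀ σ ∈ A.inertiaSubgroupIn ℚ, σ r = r ∧ σ s = s := fun σ hσ =>
    inertia_fixes_two_torsion hΔ0 hrs h2 hv2 hΔ hr hs hσ
  have hXσ : ∀ σ ∈ A.inertiaSubgroupIn ℚ, ∀ Q : (curve W).Point, M.X (σ • Q) = σ (M.X Q) :=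
    fun σ hσ Q => ptX_smul σ (hfix σ hσ).1 Q
  have hYσ : ∀ σ ∈ A.inertiaSubgroupIn ℚ, ∀ Q : (curve W).Point, M.Y (σ • Q) = σ (M.Y Q) :=
    fun σ hσ Q => ptY_smul σ (hfix σ hσ).2 Q
  -- the statement for an integral point `P'`
  have key : ∀ P' : (curve W).Point, P' ≠ 0 → v (M.X P') ≤ 1 → τ • P' - P' = τ • P - P →
      (∀ σ ∈ A.inertiaSubgroupIn ℚ, σ • P = P → σ • P' = P') →
      ∃ a : Qb, a ∈ A ∧ (∀ σ ∈ A.inertiaSubgroupIn ℚ, σ • P = P → σ a = a) ∧
        ¬ Deep A (2 * k + 1) (τ a - a) := by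
    intro P' hP' hXP' hdiff hstab
    have hYP' : v (M.Y P') ≤ 1 := M.val_Y_le_one v h₁ hA₂ hA₄.le hP' hXP'
    have hD : τ • P' - P' ≠ 0 := by rw [hdiff]; exact sub_ne_zero.2 hτP
    have hpD : (2 * k + 1) • (τ • P' - P') = 0 := by
      rw [hdiff, nsmul_sub, gal_nsmul, hP, gal_zero, sub_zero]
    have hdX : v (τ (M.X P') - M.X P') < 1 := inertia_valuation_sub_lt_one A hτ hXP'
    have hdY : v (τ (M.Y P') - M.Y P') < 1 := inertia_valuation_sub_lt_one A hτ hYP'
    have hmain := val_le_pow_of_congr v M h₄0 h₁ hA₂ hA₄.le hp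
      (fun a ha hak => hunit a ha (by omega)) hP' (smul_ne_zero τ hP') hXP'
      (δ := max (v (τ (M.X P') - M.X P')) (v (τ (M.Y P') - M.Y P'))) (max_lt hdX hdY)
      (by rw [hXσ τ hτ]; exact le_max_left _ _) (by rw [hYσ τ hτ]; exact le_max_right _ _)
      (M.nonsing_of_good v h₁ hA₂ hA₄ hd hP' hXP') hD hpD
    rcases le_total (v (τ (M.X P') - M.X P')) (v (τ (M.Y P') - M.Y P')) with hle | hle
    · rw [max_eq_right hle] at hmain
      refine ⟨M.Y P', (A.valuation_le_one_iff _).1 hYP', ?_, ?_⟩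
      · intro σ hσ hσP
        rw [← hYσ σ hσ, hstab σ hσ hσP]
      · rw [deep_iff A (Nat.succ_ne_zero _), not_lt]
        simpa using hmain
    · rw [max_eq_left hle] at hmain
      refine ⟨M.X P', (A.valuation_le_one_iff _).1 hXP', ?_, ?_⟩
      · intro σ hσ hσP
        rw [← hXσ σ hσ, hstab σ hσ hσP]
      · rw [deep_iff A (Nat.succ_ne_zero _), not_lt]
        simpa using hmain
  have hP0 : P ≠ 0 := by
    rintro rfl
    exact hτP (gal_zero τ)
  by_cases hXP : v (M.X P) ≤ 1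
  · exact key P hP0 hXP rfl (fun σ _ h => h)
  · rw [not_le] at hXP
    obtain ⟨T, hT, hTX, hTY⟩ := M.exists_point 0 0 (by ring)
    have hPT : P ≠ T := by
      rintro rfl
      rw [hTX, _root_.map_zero] at hXP
      exact absurd hXP (not_lt.2 zero_le_one)
    obtain ⟨hne, hmul⟩ := M.X_mul_X_add_of_X_eq_zero hT hTX hTY hP0 hPT
    have hTfix : ∀ σ ∈ A.inertiaSubgroupIn ℚ, σ • T = T := by
      intro σ hσ
      refine M.ext _ _ (smul_ne_zero σ hT) hT ?_ ?_
      · rw [hXσ σ hσ, hTX, _root_.map_zero]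
      · rw [hYσ σ hσ, hTY, _root_.map_zero]
    refine key (P + T) hne ?_ ?_ ?_
    · have h := congrArg v hmul
      rw [map_mul, hA₄] at h
      by_contra hcon
      rw [not_le] at hcon
      have : 1 < v (M.X P) * v (M.X (P + T)) := one_lt_mul'' hXP hcon
      rw [h] at this
      exact lt_irrefl _ this
    · rw [gal_add, hTfix τ hτ]
      abel
    · intro σ hσ hσP
      rw [gal_add, hσP, hTfix σ hσ]

end Fermat.Agent.S40.ESide
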